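import Fermat.Agent.LT.A2.H63.AdeleQuot
import Fermat.Agent.LT.T1.H11.LocComp
import Fermat.Agent.LT.T1.H767.AdeleLattice
import Fermat.Agent.LT.T1.H848.AddFundDom

/-!
# Row LT, leaf A2.11 `AdeleQuotC` (helper63): CLOSED (unconditional)

OFF-MAIN.  `A2.AdeleQuotC` with no hypotheses, by plugging into `adeleQuotC_of_T1` the closed
T1 leaves (byte-identical copies from origin/helper54@3027c3c1f):

* `T1.H11.locCompC_h11`       (helper11, T1.01),
* `H767.adeleLatticeC767`     (helper767, T1.02 + T1.03),
* `T1.H848.leafAddFundDom848` (helper848, T1.04).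
-/

set_option autoImplicit false

namespace Fermat.Agent.LT.A2.H63

open Fermat.Agent.LT

/-- `T1.AddFundDomC K`, unconditionally (closed T1 leaves T1.01 - T1.04). -/
theorem addFundDomC_closed63 (K : Type) [Field K] [NumberField K] : T1.AddFundDomC K :=
  T1.H848.leafAddFundDom848 K (T1.H11.locCompC_h11 K) (H767.adeleLatticeC767 K)

/-- **Leaf A2.11 closed.**  `K` is a lattice of finite covolume in `𝔸_K`. -/
theorem adeleQuotC_closed63 : A2.AdeleQuotC :=
  adeleQuotC_of_T1 (fun K _ _ => T1.H11.locCompC_h11 K) (fun K _ _ => addFundDomC_closed63 K)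

end Fermat.Agent.LT.A2.H63
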