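import Fermat.Agent.LT.A2.Theta
import Fermat.Agent.LT.T1.Spec

/-!
# Row LT, leaf A2.11 `AdeleQuotC` (helper63): adapter from tower T1

OFF-MAIN.  `A2.AdeleQuotC` (interface Prop of `LT/A2/Theta.lean`) follows from two interface
Props of tower T1 (`LT/T1/Spec.lean`):

* `T1.LocCompC K`   : `𝔸_K` locally compact, Hausdorff, second countable;
* `T1.AddFundDomC K`: for every Haar measure there is a Borel fundamental domain of `K` in `𝔸_K`
  of finite measure.

Proof: two fundamental domains of a countable group acting by measure-preserving translations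
have the same measure (`IsAddFundamentalDomain.measure_eq`); `K` is countable (finite-dimensional
over `ℚ`).  Nothing is assumed beyond the two hypotheses; no new definitions.
-/

set_option autoImplicit false
set_option linter.style.haveILetI false

open MeasureTheory

namespace Fermat.Agent.LT.A2.H63

open Fermat.Agent.LT Fermat.Agent.LT.H556

/-- A number field is countable. -/
theorem countable_numberField (K : Type) [Field K] [NumberField K] : Countable K := by
  have b := Module.finBasis ℚ K
  exact (b.equivFun : K ≃ₗ[ℚ] (Fin _ → ℚ)).toEquiv.countable_iff.mpr inferInstance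

/-- The principal adeles form a countable group. -/
theorem countable_princ (K : Type) [Field K] [NumberField K] : Countable (T1.princ K) := by
  have hK : Countable K := countable_numberField K
  have hs : (Set.range (algebraMap K (A0.Adl K))).Countable := Set.countable_range _
  exact hs.to_subtype

/-- One number field: the two halves of `AdeleQuotC` from `T1.LocCompC` and `T1.AddFundDomC`. -/
theorem adeleQuot_of_T1_at (K : Type) [Field K] [NumberField K]
    (hLC : T1.LocCompC K) (hFD : T1.AddFundDomC K) :
    letI : MeasurableSpace (A0.Adl K) := borel (A0.Adl K)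
    (∀ μ : MeasureTheory.Measure (A0.Adl K), μ.IsAddHaarMeasure →
      ∀ D : Set (A0.Adl K),
        MeasureTheory.IsAddFundamentalDomain
          ((algebraMap K (A0.Adl K)).toAddMonoidHom.range) D μ → μ D < ⊤) ∧
    ∃ (μ : MeasureTheory.Measure (A0.Adl K)) (D : Set (A0.Adl K)), μ.IsAddHaarMeasure ∧
      MeasureTheory.IsAddFundamentalDomain
        ((algebraMap K (A0.Adl K)).toAddMonoidHom.range) D μ := by
  obtain ⟨⟨hlc, ht2, hsc⟩, -⟩ := hLC
  letI : MeasurableSpace (A0.Adl K) := borel (A0.Adl K)
  haveI : BorelSpace (A0.Adl K) := ⟨rfl⟩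
  haveI : Countable (T1.princ K) := countable_princ K
  refine ⟨?_, ?_⟩
  · intro μ hμ D hD
    obtain ⟨D₀, -, hD₀, -, -, hfin⟩ := hFD μ hμ
    have hD' : IsAddFundamentalDomain (T1.princ K) D μ := hD
    have h := hD'.measure_eq hD₀
    rw [h]
    exact hfin
  · obtain ⟨D₀, -, hD₀, -, -, -⟩ := hFD (Measure.addHaar : Measure (A0.Adl K)) inferInstance
    exact ⟨Measure.addHaar, D₀, inferInstance, hD₀⟩

/-- **Leaf A2.11.**  `AdeleQuotC` from the T1 interface Props `LocCompC` and `AddFundDomC`. -/
theorem adeleQuotC_of_T1
    (hLC : ∀ (K : Type) [Field K] [NumberField K], T1.LocCompC K)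
    (hFD : ∀ (K : Type) [Field K] [NumberField K], T1.AddFundDomC K) :
    A2.AdeleQuotC := by
  intro K _ _
  exact adeleQuot_of_T1_at K (hLC K) (hFD K)

end Fermat.Agent.LT.A2.H63
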